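import Fermat.Agent.Corollaries.Sieg.Slope
import Fermat.Agent.Corollaries.MordellWeil.Main

/-!
# Siegel's theorem on integral points

An elliptic curve over `ℚ` (given by a Weierstrass equation with integral coefficients) has only
finitely many points with integral coordinates.
-/

open Polynomial Finset WeierstrassCurve

namespace Fermat.Agent.Cor.Sieg

/-- A finitely generated abelian group modulo `2`. -/
theorem exists_reps {A : Type*} [AddCommGroup A] (hA : AddGroup.FG A) :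
    ∃ S : Set A, S.Finite ∧ ∀ P : A, ∃ R ∈ S, ∃ Q : A, P = Q + Q + R := by
  classical
  have h1 : Module.Finite ℤ A := Module.Finite.iff_addGroup_fg.2 hA
  obtain ⟨s, hs⟩ := h1.fg_top
  refine ⟨Set.range (fun ε : s → Fin 2 => ∑ i : s, ((ε i : ℕ) : ℤ) • (i : A)),
    Set.finite_range _, fun P => ?_⟩
  have hP : P ∈ Submodule.span ℤ (s : Set A) := by rw [hs]; trivial
  rw [Submodule.mem_span_finset'] at hP
  obtain ⟨c, hc⟩ := hP
  refine ⟨_, ⟨fun i => ⟨(c i % 2).toNat, by omega⟩, rfl⟩, ∑ i : s, (c i / 2) • (i : A), ?_⟩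
  rw [← hc, ← sum_add_distrib, ← sum_add_distrib]
  refine sum_congr rfl fun i _ => ?_
  have h2 : (((c i % 2).toNat : ℕ) : ℤ) = c i % 2 := Int.toNat_of_nonneg (by omega)
  simp only
  rw [h2, ← add_smul, ← add_smul]
  congr 1
  omega

theorem shortW_Δ (a b : ℚ) : (shortW a b).Δ = -16 * (4 * a ^ 3 + 27 * b ^ 2) := by
  simp only [WeierstrassCurve.Δ, WeierstrassCurve.b₂, WeierstrassCurve.b₄,
    WeierstrassCurve.b₆, WeierstrassCurve.b₈]
  ring

/-- **Siegel's theorem for short equations**: the first coordinates. -/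
theorem finite_x {a b : ℚ} (hD : 4 * a ^ 3 + 27 * b ^ 2 ≠ 0) :
    {x : ℤ | ∃ y : ℚ, y ^ 2 = (x : ℚ) ^ 3 + a * x + b}.Finite := by
  classical
  have hΔ : (shortW a b).Δ ≠ 0 := by
    rw [shortW_Δ]
    exact mul_ne_zero (by norm_num) hD
  have hE : (shortW a b).IsElliptic := ⟨isUnit_iff_ne_zero.mpr hΔ⟩
  obtain ⟨S, hSfin, hS⟩ := exists_reps (MordellWeil.mordell_weil ℚ (shortW a b))
  -- the coordinate of a point
  let xc : (shortW a b).toAffine.Point → Set ℤ := fun P =>
    {x : ℤ | ∃ (y : ℚ) (h : (shortW a b).toAffine.Nonsingular x y), P = .some (x : ℚ) y h}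
  have hxc : ∀ P, (xc P).Finite := by
    intro P
    refine Set.Subsingleton.finite ?_
    rintro x ⟨y, h, rfl⟩ x' ⟨y', h', h2⟩
    have := (Affine.Point.some.inj h2).1
    exact_mod_cast this
  -- the set of integral points attached to a representative
  let B : (shortW a b).toAffine.Point → Set ℤ := fun R =>
    {x : ℤ | ∃ (y : ℚ) (h : (shortW a b).toAffine.Nonsingular x y) (Q : (shortW a b).toAffine.Point),
      .some (x : ℚ) y h = Q + Q + R}
  have hB : ∀ R, (B R).Finite := by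
    intro R
    rcases R with _ | ⟨xR, yR, hR⟩
    · -- duplication
      have hfin : (⋃ t ∈ {t : ℚ | (g₀ a b).eval t ≠ 0 ∧
          ∃ m : ℤ, (n₀ a b).eval t = m * (g₀ a b).eval t},
          {x : ℤ | (n₀ a b).eval t = x * (g₀ a b).eval t ∧ (g₀ a b).eval t ≠ 0}).Finite := by
        refine Set.Finite.biUnion (finite_slopes₀ hD) fun t _ => Set.Subsingleton.finite ?_
        rintro x ⟨h1, h2⟩ x' ⟨h1', -⟩
        have := mul_right_cancel₀ h2 (h1.symm.trans h1')
        exact_mod_cast this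
      refine hfin.subset ?_
      rintro x ⟨y, h, Q, hQ⟩
      have hQ' : .some (x : ℚ) y h = Q + Q := by
        rw [hQ]
        exact add_zero _
      obtain ⟨x', y', t, hx', e1, e2, e3⟩ := slope_zero _ Q (Affine.Point.some_ne_zero h) hQ'
      have hxx : (x : ℚ) = x' := (Affine.Point.some.inj e1).1
      rw [Set.mem_iUnion₂]
      rw [← hxx] at e3
      exact ⟨t, ⟨e2, x, e3⟩, e3, e2⟩
    · have hRc : yR ^ 2 = xR ^ 3 + a * xR + b := by
        have h1 := hR.1
        rw [Affine.equation_iff] at h1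
        simpa using h1
      have hfin : (⋃ t ∈ {t : ℚ | (gR a xR yR).eval t ≠ 0 ∧
          ∃ m : ℤ, (nR a b xR yR).eval t = m * (gR a xR yR).eval t},
          {x : ℤ | (nR a b xR yR).eval t = x * (gR a xR yR).eval t ∧
            (gR a xR yR).eval t ≠ 0}).Finite := by
        refine Set.Finite.biUnion (finite_slopes hD hRc) fun t _ => Set.Subsingleton.finite ?_
        rintro x ⟨h1, h2⟩ x' ⟨h1', -⟩
        have := mul_right_cancel₀ h2 (h1.symm.trans h1')
        exact_mod_cast this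
      refine ((hfin.union (hxc (.some xR yR hR))).union ((hxc (3 • .some xR yR hR)).union
        (hxc (-.some xR yR hR)))).subset ?_
      rintro x ⟨y, h, Q, hQ⟩
      rcases slope_some hR _ Q (Affine.Point.some_ne_zero h) hQ with h1 | h1 | h1 | h1
      · exact Or.inl (Or.inr ⟨y, h, h1.symm⟩)
      · exact Or.inr (Or.inl ⟨y, h, h1.symm⟩)
      · exact Or.inr (Or.inr ⟨y, h, h1.symm⟩)
      · obtain ⟨x', y', t, hx', e1, e2, e3⟩ := h1
        left; left
        have hxx : (x : ℚ) = x' := (Affine.Point.some.inj e1).1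
        rw [Set.mem_iUnion₂]
        rw [← hxx] at e3
        exact ⟨t, ⟨e2, x, e3⟩, e3, e2⟩
  refine (Set.Finite.biUnion hSfin fun R _ => hB R).subset ?_
  rintro x ⟨y, hy⟩
  have hns : (shortW a b).toAffine.Nonsingular (x : ℚ) y := by
    refine (Affine.equation_iff_nonsingular).mp ?_
    rw [Affine.equation_iff]
    simpa using hy
  obtain ⟨R, hR, Q, hQ⟩ := hS (.some (x : ℚ) y hns)
  rw [Set.mem_iUnion₂]
  exact ⟨R, hR, y, hns, Q, hQ⟩

/-- **Siegel's theorem for short equations** `y² = x³ + a x + b`. -/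
theorem finite_short {a b : ℤ} (hD : 4 * a ^ 3 + 27 * b ^ 2 ≠ 0) :
    {P : ℤ × ℤ | P.2 ^ 2 = P.1 ^ 3 + a * P.1 + b}.Finite := by
  have hD' : 4 * (a : ℚ) ^ 3 + 27 * (b : ℚ) ^ 2 ≠ 0 := by exact_mod_cast hD
  have h1 := finite_x hD'
  have hcover : {P : ℤ × ℤ | P.2 ^ 2 = P.1 ^ 3 + a * P.1 + b} ⊆
      ⋃ x ∈ {x : ℤ | ∃ y : ℚ, y ^ 2 = (x : ℚ) ^ 3 + a * x + b},
        (fun y : ℤ => (x, y)) '' {y : ℤ | y ^ 2 = x ^ 3 + a * x + b} := by
    rintro ⟨x, y⟩ hxy
    have hxy0 : y ^ 2 = x ^ 3 + a * x + b := hxy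
    rw [Set.mem_iUnion₂]
    exact ⟨x, ⟨y, by exact_mod_cast hxy0⟩, y, hxy0, rfl⟩
  refine Set.Finite.subset ?_ hcover
  refine Set.Finite.biUnion h1 fun x _ => Set.Finite.image _ ?_
  refine (Set.finite_Icc (-|x ^ 3 + a * x + b|) |x ^ 3 + a * x + b|).subset fun y hy => ?_
  have hy0 : y ^ 2 = x ^ 3 + a * x + b := hy
  refine abs_le.mp ?_
  rw [← hy0, abs_pow]
  nlinarith [abs_nonneg y, Int.one_le_abs (z := y), sq_nonneg (|y| - 1), abs_nonneg y,
    (by rcases eq_or_ne y 0 with h | h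
        · rw [h]; simp
        · have := Int.one_le_abs h
          nlinarith : |y| ≤ |y| ^ 2)]

/-- **Siegel's theorem** (Mordell 1922, Siegel 1926): a Weierstrass equation with integral
coefficients and non-zero discriminant has only finitely many integral solutions. -/
theorem finite_integral_points (W : WeierstrassCurve ℤ) (hΔ : W.Δ ≠ 0) :
    {P : ℤ × ℤ | W.toAffine.Equation P.1 P.2}.Finite := by
  set A : ℤ := -27 * W.c₄ with hA
  set B : ℤ := -54 * W.c₆ with hB
  have hD : 4 * A ^ 3 + 27 * B ^ 2 ≠ 0 := by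
    have h1 : 4 * A ^ 3 + 27 * B ^ 2 = -(2 ^ 2 * 27 ^ 3 * 1728) * W.Δ := by
      have h2 := W.c_relation
      rw [hA, hB]
      linear_combination (2 ^ 2 * 27 ^ 3 : ℤ) * h2
    rw [h1]
    exact mul_ne_zero (by norm_num) hΔ
  have h := finite_short hD
  have hinj : Set.InjOn (fun P : ℤ × ℤ =>
      (36 * P.1 + 3 * W.b₂, 108 * (2 * P.2 + W.a₁ * P.1 + W.a₃)))
      {P : ℤ × ℤ | W.toAffine.Equation P.1 P.2} := by
    rintro ⟨x, y⟩ - ⟨x', y'⟩ - hxy
    simp only [Prod.mk.injEq] at hxy ⊢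
    obtain ⟨h1, h2⟩ := hxy
    have h3 : x = x' := by omega
    subst h3
    refine ⟨rfl, ?_⟩
    have h4 := mul_left_cancel₀ (by norm_num : (108 : ℤ) ≠ 0) h2
    linarith
  refine Set.Finite.of_finite_image (h.subset ?_) hinj
  rintro _ ⟨⟨x, y⟩, hxy, rfl⟩
  have hxy0 : W.toAffine.Equation x y := hxy
  rw [Affine.equation_iff] at hxy0
  change (108 * (2 * y + W.a₁ * x + W.a₃)) ^ 2
    = (36 * x + 3 * W.b₂) ^ 3 + A * (36 * x + 3 * W.b₂) + B
  rw [hA, hB, WeierstrassCurve.c₄, WeierstrassCurve.c₆, WeierstrassCurve.b₂,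
    WeierstrassCurve.b₄, WeierstrassCurve.b₆]
  linear_combination (108 ^ 2 * 4 : ℤ) * hxy0

end Fermat.Agent.Cor.Sieg
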