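import Fermat.Agent.Corollaries.Sieg.Smooth

/-!
# Applications of Siegel's theorem on integral points

Simultaneous Pell equations, extensions of Diophantine triples, `D y ^ 4 = f(x)` with `f` quadratic,
elliptic curves with a given discriminant.
-/

open Finset

namespace Fermat.Agent.Cor.Sieg

theorem finite_sq_le (m : ℤ) : {y : ℤ | y ^ 2 = m}.Finite := by
  refine (Set.finite_Icc (-|m|) |m|).subset fun y hy => ?_
  have hy0 : y ^ 2 = m := hy
  refine abs_le.mp ?_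
  rw [← hy0, abs_pow]
  rcases eq_or_ne y 0 with h | h
  · rw [h]; simp
  · have := Int.one_le_abs h
    nlinarith

/-- **Simultaneous Pell equations**: `x² = a y² + b`, `z² = c y² + d` have only finitely many
integral solutions if `a`, `b`, `c`, `d ≠ 0` and `a d ≠ b c`. -/
theorem simultaneous_pell {a b c d : ℤ} (ha : a ≠ 0) (hb : b ≠ 0) (hc : c ≠ 0) (hd : d ≠ 0)
    (h : a * d ≠ b * c) :
    {P : ℤ × ℤ × ℤ | P.1 ^ 2 = a * P.2.1 ^ 2 + b ∧ P.2.2 ^ 2 = c * P.2.1 ^ 2 + d}.Finite := by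
  have h1 := finite_cubic ⟨a * c, a * d + b * c, b * d, 0⟩ (mul_ne_zero ha hc) (by
    have e : (⟨a * c, a * d + b * c, b * d, 0⟩ : Cubic ℤ).discr
        = (b * d) ^ 2 * (a * d - b * c) ^ 2 := by
      simp only [Cubic.discr]
      ring
    rw [e]
    exact mul_ne_zero (pow_ne_zero _ (mul_ne_zero hb hd)) (pow_ne_zero _ (sub_ne_zero.mpr h)))
    one_ne_zero
  -- finitely many values of `y ^ 2`, hence of `y`
  have hy : {y : ℤ | ∃ x z : ℤ, x ^ 2 = a * y ^ 2 + b ∧ z ^ 2 = c * y ^ 2 + d}.Finite := by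
    refine Set.Finite.subset (Set.Finite.biUnion (h1.image Prod.fst) fun m _ => finite_sq_le m) ?_
    rintro y ⟨x, z, hx, hz⟩
    rw [Set.mem_iUnion₂]
    refine ⟨y ^ 2, ⟨(y ^ 2, x * y * z), ?_, rfl⟩, rfl⟩
    change 1 * (x * y * z) ^ 2
      = a * c * (y ^ 2) ^ 3 + (a * d + b * c) * (y ^ 2) ^ 2 + b * d * y ^ 2 + 0
    have e : (x * y * z) ^ 2 = x ^ 2 * y ^ 2 * z ^ 2 := by ring
    rw [e, hx, hz]
    ring
  refine Set.Finite.subset (Set.Finite.biUnion hy fun y _ =>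
    ((finite_sq_le (a * y ^ 2 + b)).prod ((Set.finite_singleton y).prod
      (finite_sq_le (c * y ^ 2 + d))))) ?_
  rintro ⟨x, y, z⟩ ⟨hx, hz⟩
  rw [Set.mem_iUnion₂]
  exact ⟨y, ⟨x, z, hx, hz⟩, hx, rfl, hz⟩

/-- **Diophantine triples**: for different integers `a`, `b`, `c ≠ 0` there are only finitely many
integers `x` such that `a x + 1`, `b x + 1` and `c x + 1` are squares (or only their product is a
square). -/
theorem diophantine_triple {a b c : ℤ} (ha : a ≠ 0) (hb : b ≠ 0) (hc : c ≠ 0) (hab : a ≠ b)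
    (hbc : b ≠ c) (hca : c ≠ a) :
    {x : ℤ | IsSquare ((a * x + 1) * (b * x + 1) * (c * x + 1))}.Finite := by
  have h1 := finite_cubic ⟨a * b * c, a * b + b * c + c * a, a + b + c, 1⟩
    (mul_ne_zero (mul_ne_zero ha hb) hc) (by
    have e : (⟨a * b * c, a * b + b * c + c * a, a + b + c, 1⟩ : Cubic ℤ).discr
        = (a - b) ^ 2 * (b - c) ^ 2 * (c - a) ^ 2 := by
      simp only [Cubic.discr]
      ring
    rw [e]
    exact mul_ne_zero (mul_ne_zero (pow_ne_zero _ (sub_ne_zero.mpr hab))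
      (pow_ne_zero _ (sub_ne_zero.mpr hbc))) (pow_ne_zero _ (sub_ne_zero.mpr hca)))
    one_ne_zero
  refine (h1.image Prod.fst).subset ?_
  rintro x ⟨y, hy⟩
  refine ⟨(x, y), ?_, rfl⟩
  change 1 * y ^ 2 = a * b * c * x ^ 3 + (a * b + b * c + c * a) * x ^ 2 + (a + b + c) * x + 1
  linear_combination -hy

/-- `D y⁴ = a x² + b x + c`. -/
theorem finite_quadratic_four {a b c : ℤ} (ha : a ≠ 0) (hf : discrim a b c ≠ 0) {D : ℤ}
    (hD : D ≠ 0) : {P : ℤ × ℤ | D * P.2 ^ 4 = a * P.1 ^ 2 + b * P.1 + c}.Finite := by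
  have hk : 4 * a * D ≠ 0 := mul_ne_zero (mul_ne_zero (by norm_num) ha) hD
  have h := finite_short (a := 4 * a * D * discrim a b c) (b := 0) (by
    have h1 : (4 * a * D * discrim a b c) ≠ 0 := mul_ne_zero hk hf
    have h2 : (4 * a * D * discrim a b c) ^ 3 ≠ 0 := pow_ne_zero _ h1
    intro h3
    apply h2
    linarith)
  -- finitely many `y`
  have hy : {y : ℤ | ∃ x : ℤ, D * y ^ 4 = a * x ^ 2 + b * x + c}.Finite := by
    refine Set.Finite.subset (Set.Finite.biUnion (h.image Prod.fst) fun m _ =>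
      (Set.Finite.biUnion (Set.finite_Icc (-|m|) |m|) fun k _ => finite_sq_le k)) ?_
    rintro y ⟨x, hx⟩
    rw [Set.mem_iUnion₂]
    refine ⟨4 * a * D * y ^ 2, ⟨(4 * a * D * y ^ 2, 4 * a * D * y * (2 * a * x + b)), ?_, rfl⟩, ?_⟩
    · change (4 * a * D * y * (2 * a * x + b)) ^ 2
        = (4 * a * D * y ^ 2) ^ 3 + 4 * a * D * discrim a b c * (4 * a * D * y ^ 2) + 0
      rw [discrim]
      linear_combination (-(4 * a * D) ^ 2 * y ^ 2 * (4 * a)) * hx
    · rw [Set.mem_iUnion₂]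
      refine ⟨y ^ 2, ?_, rfl⟩
      refine abs_le.mp ?_
      rw [abs_mul]
      have := Int.one_le_abs hk
      nlinarith [abs_nonneg (y ^ 2)]
  refine Set.Finite.subset (Set.Finite.biUnion hy fun y _ =>
    Set.Finite.image (fun x : ℤ => (x, y)) (?_ : {x : ℤ | D * y ^ 4 = a * x ^ 2 + b * x + c}.Finite)) ?_
  · refine Set.Finite.of_finite_image (f := fun x : ℤ => 2 * a * x + b)
      ((finite_sq_le (4 * a * D * y ^ 4 + discrim a b c)).subset ?_) ?_
    · rintro _ ⟨x, hx, rfl⟩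
      have hx0 : D * y ^ 4 = a * x ^ 2 + b * x + c := hx
      change (2 * a * x + b) ^ 2 = 4 * a * D * y ^ 4 + discrim a b c
      rw [discrim]
      linear_combination (-(4 * a)) * hx0
    · rintro x - x' - hxx
      have h2 : 2 * a * x = 2 * a * x' := by
        have : 2 * a * x + b = 2 * a * x' + b := hxx
        linarith
      exact mul_left_cancel₀ (mul_ne_zero two_ne_zero ha) h2
  · rintro ⟨x, y⟩ hxy
    rw [Set.mem_iUnion₂]
    exact ⟨y, ⟨x, hxy⟩, x, hxy, rfl⟩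

/-- The pairs `(c₄, c₆)` with a given discriminant. -/
theorem finite_c₄_c₆ {D : ℤ} (hD : D ≠ 0) :
    {P : ℤ × ℤ | P.1 ^ 3 - P.2 ^ 2 = 1728 * D}.Finite := by
  have h := finite_short (a := 0) (b := -1728 * D) (by
    have h1 : (-1728 * D) ^ 2 ≠ 0 := pow_ne_zero _ (mul_ne_zero (by norm_num) hD)
    intro h3
    apply h1
    linarith)
  refine h.subset ?_
  rintro ⟨x, y⟩ hxy
  have hxy0 : x ^ 3 - y ^ 2 = 1728 * D := hxy
  change y ^ 2 = x ^ 3 + 0 * x + -1728 * D
  linarith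

/-- **There are only finitely many elliptic curves over `ℚ` with a given discriminant**: finitely
many curves over `ℚ` such that every integral Weierstrass equation of discriminant `D` is isomorphic
over `ℚ` to one of them. -/
theorem finite_curves_of_discriminant {D : ℤ} (hD : D ≠ 0) :
    ∃ S : Set (WeierstrassCurve ℚ), S.Finite ∧ ∀ W : WeierstrassCurve ℤ, W.Δ = D →
      ∃ E ∈ S, ∃ C : WeierstrassCurve.VariableChange ℚ,
        C • (W.map (Int.castRingHom ℚ)) = E := by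
  refine ⟨(fun P : ℤ × ℤ => (⟨0, 0, 0, -27 * P.1, -54 * P.2⟩ : WeierstrassCurve ℚ)) ''
    {P : ℤ × ℤ | P.1 ^ 3 - P.2 ^ 2 = 1728 * D}, (finite_c₄_c₆ hD).image _, fun W hW => ?_⟩
  refine ⟨_, ⟨(W.c₄, W.c₆), ?_, rfl⟩, ?_⟩
  · change W.c₄ ^ 3 - W.c₆ ^ 2 = 1728 * D
    rw [← hW]
    exact W.c_relation.symm
  · refine ⟨⟨Units.mk0 (1 / 6) (by norm_num), -W.b₂ / 12, -W.a₁ / 2,
      W.a₁ * W.b₂ / 24 - W.a₃ / 2⟩, ?_⟩
    rw [WeierstrassCurve.variableChange_def]
    simp only [WeierstrassCurve.c₄, WeierstrassCurve.c₆, WeierstrassCurve.b₂,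
      WeierstrassCurve.b₄, WeierstrassCurve.b₆, WeierstrassCurve.map]
    ext
    all_goals
      simp
      try ring

end Fermat.Agent.Cor.Sieg
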