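import Fermat.Agent.Corollaries.Sieg.Values

/-!
# The quartic polynomials of the 2-coverings

`y ^ 2 = x ^ 3 + a x + b`, `R = (x, y)` a point.  The polynomial
`g_R = T ^ 4 - 6 x T ^ 2 + 8 y T - (4 a + 3 x ^ 2)` and the numerator `N_R` of `x(2 Q + R)` in terms
of the slope `T` of the line through `Q` and `R`.
-/

open Polynomial Finset

namespace Fermat.Agent.Cor.Sieg

variable (a b x y : ℚ)

/-- The quartic of the 2-covering of `R = (x, y)`. -/
noncomputable def gR : ℚ[X] := X ^ 4 - C (6 * x) * X ^ 2 + C (8 * y) * X - C (4 * a + 3 * x ^ 2)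

/-- The numerator of `x(2 Q + R)`. -/
noncomputable def nR : ℚ[X] :=
  -C x * gR a x y
    + C 2 * ((X ^ 2 - C x) * (C x * X ^ 2 - C (2 * y) * X + C (2 * a + x ^ 2)) + C (2 * b))

/-- The denominator of `x(2 Q)`. -/
noncomputable def g₀ : ℚ[X] := C 4 * (X ^ 3 + C a * X + C b)

/-- The numerator of `x(2 Q)`. -/
noncomputable def n₀ : ℚ[X] := X ^ 4 - C (2 * a) * X ^ 2 - C (8 * b) * X + C (a ^ 2)

theorem natDegree_gR : (gR a x y).natDegree = 4 := by
  unfold gR; compute_degree!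

theorem coeff_gR : (gR a x y).coeff 4 = 1 := by
  have h : (gR a x y).Monic := by
    unfold gR; monicity!
  have := h.coeff_natDegree
  rwa [natDegree_gR] at this

theorem natDegree_nR : (nR a b x y).natDegree ≤ 4 := by
  unfold nR gR; compute_degree!

theorem natDegree_g₀ : (g₀ a b).natDegree = 3 := by
  unfold g₀; compute_degree!

theorem natDegree_n₀ : (n₀ a b).natDegree = 4 := by
  unfold n₀; compute_degree!

theorem coeff_n₀ : (n₀ a b).coeff 4 ≠ 0 := by
  have h : (n₀ a b).Monic := by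
    unfold n₀; monicity!
  have := h.coeff_natDegree
  rw [natDegree_n₀] at this
  rw [this]
  exact one_ne_zero

variable {a b x y}

/-- The discriminant has no common root with its derivative. -/
theorem disc_contra (hD : 4 * a ^ 3 + 27 * b ^ 2 ≠ 0) {t : ℂ} (h1 : t ^ 3 + a * t + b = 0)
    (h2 : 3 * t ^ 2 + a = 0) : False := by
  apply hD
  have h3 : (4 * (a : ℂ) ^ 3 + 27 * (b : ℂ) ^ 2) = 0 := by
    have ha : (a : ℂ) = -3 * t ^ 2 := by linear_combination h2
    have hb : (b : ℂ) = 2 * t ^ 3 := by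
      rw [ha] at h1
      linear_combination h1
    rw [ha, hb]
    ring
  exact_mod_cast h3

/-- The key identity: the line through `R` with the slope `T` and the points of contact. -/
theorem key_contra (hD : 4 * a ^ 3 + 27 * b ^ 2 ≠ 0) (hR : y ^ 2 = x ^ 3 + a * x + b) {T : ℂ}
    (hg : T ^ 4 - 6 * x * T ^ 2 + 8 * y * T - (4 * a + 3 * x ^ 2) = 0)
    (h : T ^ 3 - 3 * x * T + 2 * y = 0) : False := by
  have hR' : (y : ℂ) ^ 2 = (x : ℂ) ^ 3 + a * x + b := by exact_mod_cast hR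
  have hy : (y : ℂ) = -(T ^ 3 - 3 * x * T) / 2 := by linear_combination h / 2
  have ha : (a : ℂ) = (T ^ 4 - 6 * x * T ^ 2 + 8 * y * T - 3 * x ^ 2) / 4 := by
    linear_combination (-1 / 4 : ℂ) * hg
  have hb : (b : ℂ) = (y : ℂ) ^ 2 - (x : ℂ) ^ 3 - a * x := by linear_combination -hR'
  refine disc_contra hD (t := (T ^ 2 - x) / 2) ?_ ?_
  · rw [hb, ha, hy]
    ring
  · rw [ha, hy]
    ring

theorem isCoprime_of_forall {p q : ℚ[X]}
    (h : ∀ T : ℂ, aeval T p = 0 → aeval T q = 0 → False) : IsCoprime p q := by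
  rw [isCoprime_iff_aeval_ne_zero_of_isAlgClosed ℚ ℂ]
  intro T
  by_contra hcon
  push Not at hcon
  exact h T hcon.1 hcon.2

theorem aeval_gR (T : ℂ) : aeval T (gR a x y)
    = T ^ 4 - 6 * x * T ^ 2 + 8 * y * T - (4 * a + 3 * x ^ 2) := by
  simp [gR]

theorem squarefree_gR (hD : 4 * a ^ 3 + 27 * b ^ 2 ≠ 0) (hR : y ^ 2 = x ^ 3 + a * x + b) :
    Squarefree (gR a x y) := by
  refine Separable.squarefree ?_
  rw [separable_def]
  refine isCoprime_of_forall fun T h1 h2 => ?_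
  rw [aeval_gR] at h1
  refine key_contra hD hR h1 ?_
  have h3 : aeval T (derivative (gR a x y)) = 4 * (T ^ 3 - 3 * x * T + 2 * y) := by
    rw [gR, derivative_sub, derivative_add, derivative_sub, derivative_C, derivative_C_mul,
      derivative_C_mul, derivative_X_pow, derivative_X_pow, derivative_X]
    simp
    ring
  rw [h3] at h2
  exact (mul_eq_zero.mp h2).resolve_left (by norm_num)

theorem isCoprime_nR (hD : 4 * a ^ 3 + 27 * b ^ 2 ≠ 0) (hR : y ^ 2 = x ^ 3 + a * x + b) :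
    IsCoprime (nR a b x y) (gR a x y) := by
  refine isCoprime_of_forall fun T h1 h2 => ?_
  have hN : aeval T (nR a b x y) = -(x : ℂ) * aeval T (gR a x y)
      + 2 * ((T ^ 2 - x) * (x * T ^ 2 - 2 * y * T + (2 * a + x ^ 2)) + 2 * b) := by
    simp [nR]
  rw [h2, mul_zero, zero_add] at hN
  rw [hN] at h1
  rw [aeval_gR] at h2
  -- `t = (T² - x) / 2` is a root of the cubic
  have hR' : (y : ℂ) ^ 2 = (x : ℂ) ^ 3 + a * x + b := by exact_mod_cast hR
  have ht : ((T ^ 2 - x) / 2) ^ 3 + a * ((T ^ 2 - x) / 2) + (b : ℂ) = 0 := by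
    linear_combination (1 / 4 : ℂ) * h1 + (T ^ 2 - x) / 8 * h2
  -- hence the value of the line at `t` is zero
  have hline : (T ^ 3 - 3 * x * T + 2 * y) ^ 2 = 0 := by
    linear_combination 4 * ht + 4 * hR' + (T ^ 2 - 3 * x) / 2 * h2
  exact key_contra hD hR h2 (pow_eq_zero_iff two_ne_zero |>.mp hline)

theorem squarefree_g₀ (hD : 4 * a ^ 3 + 27 * b ^ 2 ≠ 0) : Squarefree (g₀ a b) := by
  refine Separable.squarefree ?_
  rw [separable_def]
  refine isCoprime_of_forall fun T h1 h2 => ?_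
  have e1 : aeval T (g₀ a b) = 4 * (T ^ 3 + a * T + b) := by simp [g₀]
  have e2 : aeval T (derivative (g₀ a b)) = 4 * (3 * T ^ 2 + a) := by norm_num [g₀]
  rw [e1] at h1
  rw [e2] at h2
  exact disc_contra hD ((mul_eq_zero.mp h1).resolve_left (by norm_num))
    ((mul_eq_zero.mp h2).resolve_left (by norm_num))

theorem isCoprime_n₀ (hD : 4 * a ^ 3 + 27 * b ^ 2 ≠ 0) : IsCoprime (n₀ a b) (g₀ a b) := by
  refine isCoprime_of_forall fun T h1 h2 => ?_
  have e1 : aeval T (n₀ a b) = T ^ 4 - 2 * a * T ^ 2 - 8 * b * T + (a : ℂ) ^ 2 := by simp [n₀]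
  have e2 : aeval T (g₀ a b) = 4 * (T ^ 3 + a * T + b) := by simp [g₀]
  rw [e1] at h1
  rw [e2] at h2
  have h3 := (mul_eq_zero.mp h2).resolve_left (by norm_num)
  have h4 : (3 * T ^ 2 + (a : ℂ)) ^ 2 = 0 := by
    linear_combination h1 + 8 * T * h3
  exact disc_contra hD h3 (pow_eq_zero_iff two_ne_zero |>.mp h4)

/-- Finitely many slopes. -/
theorem finite_slopes (hD : 4 * a ^ 3 + 27 * b ^ 2 ≠ 0) (hR : y ^ 2 = x ^ 3 + a * x + b) :
    {t : ℚ | (gR a x y).eval t ≠ 0 ∧ ∃ m : ℤ, (nR a b x y).eval t = m * (gR a x y).eval t}.Finite :=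
  finite_values_rat (n := 4) (by norm_num) (squarefree_gR hD hR) (isCoprime_nR hD hR)
    (natDegree_nR a b x y) (natDegree_gR a x y).le (by rw [natDegree_gR]; norm_num)
    (Or.inr (by rw [coeff_gR]; exact one_ne_zero))

theorem finite_slopes₀ (hD : 4 * a ^ 3 + 27 * b ^ 2 ≠ 0) :
    {t : ℚ | (g₀ a b).eval t ≠ 0 ∧ ∃ m : ℤ, (n₀ a b).eval t = m * (g₀ a b).eval t}.Finite :=
  finite_values_rat (n := 4) (by norm_num) (squarefree_g₀ hD) (isCoprime_n₀ hD)
    (natDegree_n₀ a b).le (by rw [natDegree_g₀]; norm_num) (by rw [natDegree_g₀])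
    (Or.inl (coeff_n₀ a b))

end Fermat.Agent.Cor.Sieg
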