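import Fermat.Agent.Corollaries.Sieg.Quartic

/-!
# The slope of the line through `Q` and `R` and the abscissa of `2 Q + R`

`y ^ 2 = x ^ 3 + a x + b` over `ℚ`.  The abscissa of `2 Q + R` is `nR(t) / gR(t)`, `t` the slope of
the line through `Q` and `R`; for `R = 0` it is `n₀(t) / g₀(t)`, `t` the abscissa of `Q`.
-/

namespace Fermat.Agent.Cor.Sieg

open Polynomial WeierstrassCurve WeierstrassCurve.Affine

/-- the curve `y ^ 2 = x ^ 3 + a x + b` -/
abbrev shortW (a b : ℚ) : WeierstrassCurve ℚ := ⟨0, 0, 0, a, b⟩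

variable {a b : ℚ}

theorem equation_short {x y : ℚ} (h : (shortW a b).toAffine.Equation x y) :
    y ^ 2 = x ^ 3 + a * x + b := by
  rw [Affine.equation_iff] at h
  simpa using h

theorem add_x {x₁ y₁ x₂ y₂ : ℚ} (h₁ : (shortW a b).toAffine.Nonsingular x₁ y₁)
    (h₂ : (shortW a b).toAffine.Nonsingular x₂ y₂) (hx : x₁ ≠ x₂) :
    ∃ (x y : ℚ) (h : (shortW a b).toAffine.Nonsingular x y),
      Point.some x₁ y₁ h₁ + Point.some x₂ y₂ h₂ = Point.some x y h ∧
      x = ((y₁ - y₂) / (x₁ - x₂)) ^ 2 - x₁ - x₂ ∧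
      y = -((y₁ - y₂) / (x₁ - x₂) * (x - x₁) + y₁) := by
  refine ⟨_, _, _, Point.add_of_X_ne hx, ?_, ?_⟩
  · rw [slope_of_X_ne hx]
    simp [addX]
  · rw [slope_of_X_ne hx]
    simp only [addY, negAddY, negY]
    ring

/-- the abscissa of `2 Q` -/
theorem slope_zero (P Q : (shortW a b).toAffine.Point) (hP : P ≠ 0) (h : P = Q + Q) :
    ∃ (x y t : ℚ) (hx : (shortW a b).toAffine.Nonsingular x y), P = .some x y hx ∧
      (g₀ a b).eval t ≠ 0 ∧ (n₀ a b).eval t = x * (g₀ a b).eval t := by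
  obtain _ | ⟨u, v, hQ⟩ := Q
  · exact absurd (h.trans (add_zero _)) hP
  have he := equation_short hQ.1
  have hv' : v ≠ (shortW a b).toAffine.negY u v := fun h1 =>
    hP (h.trans (Point.add_self_of_Y_eq h1))
  have hv : v ≠ 0 := by
    rintro rfl
    apply hv'
    simp [negY]
  refine ⟨_, _, u, _, h.trans (Point.add_self_of_Y_ne hv'), ?_, ?_⟩
  · have h1 : (g₀ a b).eval u = 4 * v ^ 2 := by
      simp only [g₀, eval_mul, eval_add, eval_pow, eval_C, eval_X]
      rw [he]
    rw [h1]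
    exact mul_ne_zero (by norm_num) (pow_ne_zero 2 hv)
  · rw [slope_of_Y_ne rfl hv']
    simp only [g₀, n₀, addX, negY, eval_mul, eval_add, eval_sub, eval_pow, eval_C, eval_X]
    rw [← he]
    have hb : b = v ^ 2 - u ^ 3 - a * u := by linear_combination -he
    have h2 : v - (-v - 0 * u - 0) = 2 * v := by ring
    rw [h2, hb]
    field_simp
    ring

/-- the abscissa of `2 Q + R`, `R ≠ 0` -/
theorem slope_some {xR yR : ℚ} (hR : (shortW a b).toAffine.Nonsingular xR yR)
    (P Q : (shortW a b).toAffine.Point) (hP : P ≠ 0) (h : P = Q + Q + .some xR yR hR) :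
    P = .some xR yR hR ∨ P = 3 • .some xR yR hR ∨ P = -.some xR yR hR ∨
      ∃ (x y t : ℚ) (hx : (shortW a b).toAffine.Nonsingular x y), P = .some x y hx ∧
        (gR a xR yR).eval t ≠ 0 ∧ (nR a b xR yR).eval t = x * (gR a xR yR).eval t := by
  obtain _ | ⟨u, v, hQ⟩ := Q
  · left
    rw [h]
    exact (congrArg (· + _) (add_zero _)).trans (zero_add _)
  have e1 := equation_short hQ.1
  have e2 := equation_short hR.1
  by_cases hur : u = xR
  · subst hur
    have h1 : v = yR ∨ v = -yR := by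
      rw [← sq_eq_sq_iff_eq_or_eq_neg, e1, e2]
    rcases h1 with rfl | rfl
    · right; left
      rw [h, succ_nsmul, two_nsmul]
    · right; right; left
      have h2 : Point.some u (-yR) hQ = -Point.some u yR hR := by
        simp [Point.neg_some, negY]
      rw [h, h2]
      abel
  right; right; right
  obtain ⟨xS, yS, hS, hSe, hxS, hyS⟩ := add_x hQ hR hur
  set t : ℚ := (v - yR) / (u - xR) with ht
  have hur' : u - xR ≠ 0 := sub_ne_zero.2 hur
  have hv : v = yR + t * (u - xR) := by rw [ht]; field_simp; ring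
  have hq : u ^ 2 - (t ^ 2 - xR) * u + a - 2 * t * yR + t ^ 2 * xR + xR ^ 2 = 0 := by
    have h1 : (u - xR) *
        (u ^ 2 - (t ^ 2 - xR) * u + a - 2 * t * yR + t ^ 2 * xR + xR ^ 2) = 0 := by
      rw [hv] at e1
      linear_combination e2 - e1
    exact (mul_eq_zero.1 h1).resolve_left hur'
  have hgt : (gR a xR yR).eval t = (u - xS) ^ 2 := by
    simp only [gR, eval_add, eval_sub, eval_mul, eval_C, eval_pow, eval_X]
    rw [hxS]
    linear_combination (-4) * hq
  have huS : u ≠ xS := by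
    intro huS
    have hyS2 : v = yS ∨ v = -yS := by
      rw [← sq_eq_sq_iff_eq_or_eq_neg, e1, equation_short hS.1, huS]
    rcases hyS2 with h2 | h2
    · have h3 : Point.some u v hQ = Point.some xS yS hS := by
        subst huS h2; rfl
      rw [← hSe] at h3
      exact Point.some_ne_zero hR (by simpa using h3.symm)
    · apply hP
      have h3 : Point.some xS yS hS = -Point.some u v hQ := by
        subst huS h2
        simp [Point.neg_some, negY]
      rw [h, add_assoc, hSe, h3, add_neg_cancel]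
  obtain ⟨x, y, h', he, hx, -⟩ := add_x hQ hS huS
  have huS' : u - xS ≠ 0 := sub_ne_zero.2 huS
  refine ⟨x, y, t, h', by rw [h, add_assoc, hSe, he], ?_, ?_⟩
  · rw [hgt]
    exact pow_ne_zero 2 huS'
  have h1 : x * (u - xS) ^ 2 = (v - yS) ^ 2 - (u + xS) * (u - xS) ^ 2 := by
    rw [hx]; field_simp; ring
  have h2 : v - yS = t ^ 3 - 3 * xR * t + 2 * yR := by
    rw [hyS, hxS, hv]; ring
  have h3 : u + xS = t ^ 2 - xR := by rw [hxS]; ring
  have hg' : (u - xS) ^ 2 = t ^ 4 - 6 * xR * t ^ 2 + 8 * yR * t - (4 * a + 3 * xR ^ 2) := by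
    rw [← hgt]
    simp only [gR, eval_add, eval_sub, eval_mul, eval_C, eval_pow, eval_X]
  rw [hgt, h1, h2, h3]
  simp only [nR, eval_neg, eval_sub, eval_add, eval_mul, eval_C, eval_pow, eval_X, hgt]
  rw [hg']
  linear_combination (-4) * e2

end Fermat.Agent.Cor.Sieg
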