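import Fermat.Agent.Corollaries.Sieg.Main

/-!
# Prime factors of quadratic and cubic polynomials

Let `f` be a polynomial of degree `2` or `3` over `ℤ` without multiple root.  The equations
`D y ² = f(x)` (degree `3`) and `D y ³ = f(x)` (degree `2`) have only finitely many integral
solutions.  Hence the greatest prime factor of `f(n)` tends to infinity (Størmer, Pólya, Siegel).
-/

open Finset

namespace Fermat.Agent.Cor.Sieg

/-- `D y² = f(x)`, `f` cubic. -/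
theorem finite_cubic (f : Cubic ℤ) (ha : f.a ≠ 0) (hf : f.discr ≠ 0) {D : ℤ} (hD : D ≠ 0) :
    {P : ℤ × ℤ | D * P.2 ^ 2 = f.a * P.1 ^ 3 + f.b * P.1 ^ 2 + f.c * P.1 + f.d}.Finite := by
  set W : WeierstrassCurve ℤ :=
    ⟨0, f.b * D, 0, f.c * f.a * D ^ 2, f.d * f.a ^ 2 * D ^ 3⟩ with hW
  have hΔ : W.Δ ≠ 0 := by
    have h1 : W.Δ = 16 * D ^ 6 * f.a ^ 2 * f.discr := by
      simp only [hW, WeierstrassCurve.Δ, WeierstrassCurve.b₂, WeierstrassCurve.b₄,
        WeierstrassCurve.b₆, WeierstrassCurve.b₈, Cubic.discr]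
      ring
    rw [h1]
    exact mul_ne_zero (mul_ne_zero (mul_ne_zero (by norm_num) (pow_ne_zero _ hD))
      (pow_ne_zero _ ha)) hf
  have h := finite_integral_points W hΔ
  have hinj : Set.InjOn (fun P : ℤ × ℤ => (f.a * D * P.1, f.a * D ^ 2 * P.2))
      {P : ℤ × ℤ | D * P.2 ^ 2 = f.a * P.1 ^ 3 + f.b * P.1 ^ 2 + f.c * P.1 + f.d} := by
    rintro ⟨x, y⟩ - ⟨x', y'⟩ - hxy
    simp only [Prod.mk.injEq] at hxy ⊢
    exact ⟨mul_left_cancel₀ (mul_ne_zero ha hD) hxy.1,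
      mul_left_cancel₀ (mul_ne_zero ha (pow_ne_zero _ hD)) hxy.2⟩
  refine Set.Finite.of_finite_image (h.subset ?_) hinj
  rintro _ ⟨⟨x, y⟩, hxy, rfl⟩
  have hxy0 : D * y ^ 2 = f.a * x ^ 3 + f.b * x ^ 2 + f.c * x + f.d := hxy
  change W.toAffine.Equation (f.a * D * x) (f.a * D ^ 2 * y)
  rw [WeierstrassCurve.Affine.equation_iff]
  simp only [hW]
  linear_combination (f.a ^ 2 * D ^ 3) * hxy0

/-- `D y³ = f(x)`, `f` quadratic. -/
theorem finite_quadratic {a b c : ℤ} (ha : a ≠ 0) (hf : discrim a b c ≠ 0) {D : ℤ} (hD : D ≠ 0) :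
    {P : ℤ × ℤ | D * P.2 ^ 3 = a * P.1 ^ 2 + b * P.1 + c}.Finite := by
  have hk : 4 * a * D ≠ 0 := mul_ne_zero (mul_ne_zero (by norm_num) ha) hD
  have h := finite_short (a := 0) (b := (4 * a * D) ^ 2 * discrim a b c) (by
    have h1 : ((4 * a * D) ^ 2 * discrim a b c) ≠ 0 := mul_ne_zero (pow_ne_zero _ hk) hf
    have h2 : 0 < ((4 * a * D) ^ 2 * discrim a b c) ^ 2 := by positivity
    intro h3
    nlinarith)
  have hinj : Set.InjOn (fun P : ℤ × ℤ => (4 * a * D * P.2, 4 * a * D * (2 * a * P.1 + b)))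
      {P : ℤ × ℤ | D * P.2 ^ 3 = a * P.1 ^ 2 + b * P.1 + c} := by
    rintro ⟨x, y⟩ - ⟨x', y'⟩ - hxy
    simp only [Prod.mk.injEq] at hxy ⊢
    refine ⟨?_, mul_left_cancel₀ hk hxy.1⟩
    have h1 := mul_left_cancel₀ hk hxy.2
    have h2 : 2 * a * x = 2 * a * x' := by linarith
    exact mul_left_cancel₀ (mul_ne_zero two_ne_zero ha) h2
  refine Set.Finite.of_finite_image (h.subset ?_) hinj
  rintro _ ⟨⟨x, y⟩, hxy, rfl⟩
  have hxy0 : D * y ^ 3 = a * x ^ 2 + b * x + c := hxy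
  change (4 * a * D * (2 * a * x + b)) ^ 2
    = (4 * a * D * y) ^ 3 + 0 * (4 * a * D * y) + (4 * a * D) ^ 2 * discrim a b c
  rw [discrim]
  linear_combination (-(4 * a * D) ^ 2 * (4 * a)) * hxy0

/-- A non-zero integer all of whose prime factors are in `S` is `D y ^ k` with `D` in a finite
set. -/
theorem exists_eq_mul_pow {S : Finset ℕ} {m : ℤ} (hm : m ≠ 0)
    (h : ∀ p : ℕ, p.Prime → (p : ℤ) ∣ m → p ∈ S) (k : ℕ) (hk : 0 < k) :
    ∃ D y : ℤ, D * y ^ k = m ∧ D ∣ (∏ p ∈ S, (p : ℤ)) ^ k ∧ D ≠ 0 := by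
  have hm' : m.natAbs ≠ 0 := Int.natAbs_ne_zero.mpr hm
  have hprod : m.natAbs = ∏ p ∈ S, p ^ m.natAbs.factorization p := by
    conv_lhs => rw [← Nat.prod_factorization_pow_eq_self hm']
    refine Finsupp.prod_of_support_subset _ ?_ _ (fun p _ => pow_zero p)
    intro p hp
    rw [Nat.support_factorization, Nat.mem_primeFactors] at hp
    exact h p hp.1 (Int.natCast_dvd.mpr hp.2.1)
  set D₀ : ℕ := ∏ p ∈ S, p ^ (m.natAbs.factorization p % k) with hD₀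
  set y₀ : ℕ := ∏ p ∈ S, p ^ (m.natAbs.factorization p / k) with hy₀
  have h1 : m.natAbs = D₀ * y₀ ^ k := by
    conv_lhs => rw [hprod]
    rw [hD₀, hy₀, ← prod_pow, ← prod_mul_distrib]
    refine prod_congr rfl fun p _ => ?_
    rw [← pow_mul, ← pow_add]
    congr 1
    rw [Nat.mul_comm]
    exact (Nat.mod_add_div _ _).symm
  have hD₀0 : (D₀ : ℤ) ≠ 0 := by
    have : D₀ ≠ 0 := by
      intro h0
      rw [h0, zero_mul] at h1
      exact hm' h1
    exact_mod_cast this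
  have hdvd : (D₀ : ℤ) ∣ (∏ p ∈ S, (p : ℤ)) ^ k := by
    rw [hD₀]
    push_cast
    rw [← prod_pow]
    exact prod_dvd_prod_of_dvd _ _ fun p _ => pow_dvd_pow _ (Nat.mod_lt _ hk).le
  have hsign : m.sign * (m.natAbs : ℤ) = m := Int.sign_mul_natAbs m
  have hs : IsUnit m.sign := by
    rcases lt_or_gt_of_ne hm with h2 | h2
    · rw [Int.sign_eq_neg_one_of_neg h2]; exact isUnit_one.neg
    · rw [Int.sign_eq_one_of_pos h2]; exact isUnit_one
  refine ⟨m.sign * D₀, y₀, ?_, ?_, mul_ne_zero hs.ne_zero hD₀0⟩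
  · rw [mul_assoc]
    conv_rhs => rw [← hsign, h1]
    push_cast
    rfl
  · exact (hs.mul_left_dvd).mpr hdvd

/-- If all the equations `D y ^ k = f n`, `D ≠ 0`, have finitely many solutions then only finitely
many values of `f` are products of primes from a finite set. -/
theorem finite_smooth {f : ℤ → ℤ} {k : ℕ} (hk : 0 < k)
    (hf : ∀ D : ℤ, D ≠ 0 → {P : ℤ × ℤ | D * P.2 ^ k = f P.1}.Finite) {S : Finset ℕ}
    (hS : ∀ p ∈ S, p.Prime) :
    {n : ℤ | f n ≠ 0 ∧ ∀ p : ℕ, p.Prime → (p : ℤ) ∣ f n → p ∈ S}.Finite := by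
  set M : ℤ := (∏ p ∈ S, (p : ℤ)) ^ k with hM
  have hM0 : M ≠ 0 := pow_ne_zero _ (prod_ne_zero_iff.mpr fun p hp => by
    exact_mod_cast (hS p hp).ne_zero)
  have hfin : (⋃ D ∈ {D : ℤ | D ∣ M ∧ D ≠ 0}, Prod.fst '' {P : ℤ × ℤ | D * P.2 ^ k = f P.1}).Finite := by
    refine Set.Finite.biUnion ?_ fun D hD => (hf D hD.2).image _
    refine (Set.finite_Icc (-|M|) |M|).subset fun D hD => ?_
    exact abs_le.mp (Int.le_of_dvd (abs_pos.mpr hM0) ((abs_dvd_abs _ _).mpr hD.1))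
  refine hfin.subset ?_
  rintro n ⟨hn0, hn⟩
  obtain ⟨D, y, h1, h2, h3⟩ := exists_eq_mul_pow hn0 hn k hk
  rw [Set.mem_iUnion₂]
  exact ⟨D, ⟨h2, h3⟩, (n, y), h1, rfl⟩

/-- The greatest prime factor tends to infinity. -/
theorem exists_prime_gt {f : ℤ → ℤ}
    (hf : ∀ S : Finset ℕ, (∀ p ∈ S, p.Prime) →
      {n : ℤ | f n ≠ 0 ∧ ∀ p : ℕ, p.Prime → (p : ℤ) ∣ f n → p ∈ S}.Finite)
    (N : ℕ) : ∃ B : ℤ, ∀ n : ℤ, B < |n| → ∃ p : ℕ, p.Prime ∧ N < p ∧ (p : ℤ) ∣ f n := by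
  have h := hf ((range (N + 1)).filter Nat.Prime) (fun p hp => (mem_filter.mp hp).2)
  obtain ⟨B, hB⟩ := (h.image (fun n => |n|)).bddAbove
  refine ⟨B, fun n hn => ?_⟩
  by_cases hfn : f n = 0
  · obtain ⟨p, hp1, hp2⟩ := Nat.exists_infinite_primes (N + 1)
    exact ⟨p, hp2, by omega, by rw [hfn]; exact dvd_zero _⟩
  by_contra hcon
  push Not at hcon
  have h1 : |n| ≤ B := hB ⟨n, ⟨hfn, fun p hp hpn => ?_⟩, rfl⟩
  · exact absurd h1 (not_le.mpr hn)
  · rw [mem_filter, mem_range]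
    refine ⟨?_, hp⟩
    by_contra h2
    exact hcon p hp (by omega) hpn

/-- **Størmer, Pólya**: a quadratic polynomial with two different roots. -/
theorem finite_smooth_quadratic {a b c : ℤ} (ha : a ≠ 0) (hf : discrim a b c ≠ 0) {S : Finset ℕ}
    (hS : ∀ p ∈ S, p.Prime) :
    {n : ℤ | a * n ^ 2 + b * n + c ≠ 0 ∧
      ∀ p : ℕ, p.Prime → (p : ℤ) ∣ a * n ^ 2 + b * n + c → p ∈ S}.Finite :=
  finite_smooth (f := fun n => a * n ^ 2 + b * n + c) (k := 3) (by norm_num)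
    (fun _ hD => finite_quadratic ha hf hD) hS

/-- A cubic polynomial with three different roots. -/
theorem finite_smooth_cubic (f : Cubic ℤ) (ha : f.a ≠ 0) (hf : f.discr ≠ 0) {S : Finset ℕ}
    (hS : ∀ p ∈ S, p.Prime) :
    {n : ℤ | f.a * n ^ 3 + f.b * n ^ 2 + f.c * n + f.d ≠ 0 ∧ ∀ p : ℕ, p.Prime →
      (p : ℤ) ∣ f.a * n ^ 3 + f.b * n ^ 2 + f.c * n + f.d → p ∈ S}.Finite :=
  finite_smooth (f := fun n => f.a * n ^ 3 + f.b * n ^ 2 + f.c * n + f.d) (k := 2) (by norm_num)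
    (fun _ hD => finite_cubic f ha hf hD) hS

/-- **Pólya's theorem** (1918): the greatest prime factor of `a n² + b n + c` tends to infinity with
`|n|` if the discriminant is not zero. -/
theorem polya {a b c : ℤ} (ha : a ≠ 0) (hf : discrim a b c ≠ 0) (N : ℕ) :
    ∃ B : ℤ, ∀ n : ℤ, B < |n| → ∃ p : ℕ, p.Prime ∧ N < p ∧ (p : ℤ) ∣ a * n ^ 2 + b * n + c :=
  exists_prime_gt (fun _ hS => finite_smooth_quadratic ha hf hS) N

/-- The greatest prime factor of a cubic polynomial with non-zero discriminant tends to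
infinity. -/
theorem polya_cubic (f : Cubic ℤ) (ha : f.a ≠ 0) (hf : f.discr ≠ 0) (N : ℕ) :
    ∃ B : ℤ, ∀ n : ℤ, B < |n| → ∃ p : ℕ, p.Prime ∧ N < p ∧
      (p : ℤ) ∣ f.a * n ^ 3 + f.b * n ^ 2 + f.c * n + f.d :=
  exists_prime_gt (fun _ hS => finite_smooth_cubic f ha hf hS) N

/-- **Størmer's theorem** (1897), for the difference `k`: only finitely many pairs of positive
integers with the difference `k ≠ 0` have no prime factor outside of a finite set. -/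
theorem stormer {k : ℕ} (hk : k ≠ 0) {S : Finset ℕ} (hS : ∀ p ∈ S, p.Prime) :
    {n : ℕ | n ≠ 0 ∧ (∀ p : ℕ, p.Prime → p ∣ n → p ∈ S) ∧
      ∀ p : ℕ, p.Prime → p ∣ n + k → p ∈ S}.Finite := by
  have h := finite_smooth_quadratic (a := 1) (b := k) (c := 0) one_ne_zero (by
    have : (k : ℤ) ≠ 0 := by exact_mod_cast hk
    rw [discrim]
    simpa using this) hS
  refine Set.Finite.of_finite_image (f := fun n : ℕ => (n : ℤ)) (h.subset ?_)
    (Nat.cast_injective.injOn)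
  rintro _ ⟨n, ⟨hn0, h1, h2⟩, rfl⟩
  have e : (1 : ℤ) * (n : ℤ) ^ 2 + (k : ℤ) * n + 0 = ((n * (n + k) : ℕ) : ℤ) := by
    push_cast
    ring
  refine ⟨?_, fun p hp hpn => ?_⟩
  · rw [e]
    have : n * (n + k) ≠ 0 := by positivity
    exact_mod_cast this
  · rw [e, Int.natCast_dvd_natCast] at hpn
    rcases (hp.dvd_mul).mp hpn with h3 | h3
    · exact h1 p hp h3
    · exact h2 p hp h3

end Fermat.Agent.Cor.Sieg
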