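import Fermat.Agent.Corollaries.Thue.Examples

/-!
# Integral values of rational functions

Let `N`, `g` be coprime polynomials over `ℚ`, `g` squarefree, `n = max (deg N) (deg g) ≥ 3` and
`deg g ≥ n - 1`.  Then `N(t) / g(t)` is an integer only for finitely many rational numbers `t`.
-/

open Polynomial Finset

namespace Fermat.Agent.Cor.Sieg

open Fermat.Agent.Cor.Thue

theorem form_eq_of_le {F : ℤ[X]} {n : ℕ} (hF : F.natDegree ≤ n) (x y : ℤ) (hy : y ≠ 0) :
    ((form F n x y : ℤ) : ℚ) = (y : ℚ) ^ n * aeval ((x : ℚ) / y) F := by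
  have hy' : (y : ℚ) ≠ 0 := by exact_mod_cast hy
  rw [form, aeval_eq_sum_range' (lt_of_le_of_lt hF (Nat.lt_succ_self n)), mul_sum]
  push_cast
  refine sum_congr rfl fun i hi => ?_
  rw [mem_range] at hi
  have h1 : (y : ℚ) ^ n = (y : ℚ) ^ (n - i) * (y : ℚ) ^ i := by
    rw [← pow_add]
    congr 1
    omega
  rw [h1, zsmul_eq_mul, div_pow]
  field_simp

theorem form_succ (F : ℤ[X]) (x y : ℤ) :
    form F (F.natDegree + 1) x y = y * form F F.natDegree x y := by
  rw [form, sum_range_succ, coeff_eq_zero_of_natDegree_lt (Nat.lt_succ_self _), form, mul_sum]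
  simp only [zero_mul, add_zero]
  refine sum_congr rfl fun i hi => ?_
  rw [mem_range] at hi
  have h1 : F.natDegree + 1 - i = (F.natDegree - i) + 1 := by omega
  rw [h1, pow_succ]
  ring

theorem finite_form_succ {F : ℤ[X]} (hd : 0 < F.natDegree) {m : ℤ} (hm : m ≠ 0) :
    {p : ℤ × ℤ | form F (F.natDegree + 1) p.1 p.2 = m}.Finite := by
  have hcover : {p : ℤ × ℤ | form F (F.natDegree + 1) p.1 p.2 = m} ⊆
      ⋃ y ∈ Set.Icc (-|m|) |m|,
        (fun x : ℤ => (x, y)) '' {x : ℤ | form F F.natDegree x y = m / y} := by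
    rintro ⟨x, y⟩ hxy
    have hxy0 : form F (F.natDegree + 1) x y = m := hxy
    rw [form_succ] at hxy0
    have hy0 : y ≠ 0 := by
      intro h
      rw [h, zero_mul] at hxy0
      exact hm hxy0.symm
    have hdvd : y ∣ m := ⟨_, hxy0.symm⟩
    have hle : |y| ≤ |m| := Int.le_of_dvd (abs_pos.mpr hm) ((abs_dvd_abs _ _).mpr hdvd)
    rw [Set.mem_iUnion₂]
    refine ⟨y, abs_le.mp hle, x, ?_, rfl⟩
    change form F F.natDegree x y = m / y
    rw [← hxy0, Int.mul_ediv_cancel_left _ hy0]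
  refine Set.Finite.subset ?_ hcover
  refine Set.Finite.biUnion (Set.finite_Icc _ _) fun y _ => ?_
  exact (finite_fixed F hd (m / y) y).image _

theorem finite_form {F : ℤ[X]} (hsq : Squarefree (F.map (Int.castRingHom ℚ))) {n : ℕ}
    (hn : 3 ≤ n) (h : F.natDegree ≤ n) (h' : n ≤ F.natDegree + 1) {m : ℤ} (hm : m ≠ 0) :
    {p : ℤ × ℤ | form F n p.1 p.2 = m}.Finite := by
  rcases Nat.lt_or_ge F.natDegree n with h1 | h1
  · obtain rfl : n = F.natDegree + 1 := by omega
    exact finite_form_succ (by omega) hm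
  · obtain rfl : n = F.natDegree := by omega
    exact thue_equation hsq hn hm

theorem exists_clear (a : ℚ[X]) : ∃ D : ℤ, D ≠ 0 ∧ ∃ A : ℤ[X],
    A.map (Int.castRingHom ℚ) = C (D : ℚ) * a := by
  obtain ⟨b, hbM, hb⟩ := IsLocalization.integerNormalization_spec (nonZeroDivisors ℤ) a
  refine ⟨b, nonZeroDivisors.ne_zero hbM,
    IsLocalization.integerNormalization (nonZeroDivisors ℤ) a, ?_⟩
  rw [show Int.castRingHom ℚ = algebraMap ℤ ℚ from rfl, hb, ← smul_eq_C_mul]
  ext i
  simp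

theorem form_modEq (F : ℤ[X]) (n : ℕ) (x y : ℤ) : y ∣ form F n x y - F.coeff n * x ^ n := by
  rw [form, sum_range_succ, Nat.sub_self, pow_zero, mul_one, add_sub_cancel_right]
  refine dvd_sum fun i hi => ?_
  rw [mem_range] at hi
  exact Dvd.dvd.mul_left (dvd_pow_self y (by omega)) _

/-- **Integral values of a rational function** with at least three simple poles: the case of
integral polynomials. -/
theorem finite_values {N g : ℤ[X]} {n : ℕ} (hn : 3 ≤ n)
    (hsq : Squarefree (g.map (Int.castRingHom ℚ)))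
    (hcop : IsCoprime (N.map (Int.castRingHom ℚ)) (g.map (Int.castRingHom ℚ)))
    (hN : N.natDegree ≤ n) (hg : g.natDegree ≤ n) (hgn : n ≤ g.natDegree + 1)
    (hlead : N.coeff n ≠ 0 ∨ g.coeff n ≠ 0) :
    {t : ℚ | aeval t g ≠ 0 ∧ ∃ m : ℤ, aeval t N = m * aeval t g}.Finite := by
  -- Bezout over `ℤ`
  obtain ⟨U, V, r, hr, hUV⟩ : ∃ U V : ℤ[X], ∃ r : ℤ, r ≠ 0 ∧ U * N + V * g = C r := by
    obtain ⟨a, b, hab⟩ := hcop
    obtain ⟨D₁, hD₁, A, hA⟩ := exists_clear a
    obtain ⟨D₂, hD₂, B, hB⟩ := exists_clear b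
    refine ⟨C D₂ * A, C D₁ * B, D₁ * D₂, mul_ne_zero hD₁ hD₂, ?_⟩
    apply map_injective (Int.castRingHom ℚ) Int.cast_injective
    have hC : ∀ z : ℤ, (C z : ℤ[X]).map (Int.castRingHom ℚ) = C (z : ℚ) := fun z => by
      rw [map_C]; rfl
    rw [Polynomial.map_add, Polynomial.map_mul, Polynomial.map_mul, Polynomial.map_mul,
      Polynomial.map_mul, hC, hC, hC, hA, hB, Int.cast_mul, C_mul]
    linear_combination (C (D₁ : ℚ) * C (D₂ : ℚ)) * hab
  obtain ⟨c, hc0, hc⟩ : ∃ c : ℤ, c ≠ 0 ∧ ∀ x y d : ℤ, IsCoprime x y → d ∣ form N n x y →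
      d ∣ form g n x y → d ∣ y → d ∣ c := by
    have key : ∀ (F : ℤ[X]) (x y d : ℤ), IsCoprime x y → d ∣ form F n x y → d ∣ y →
        d ∣ F.coeff n := by
      intro F x y d hxy h1 h2
      have h3 : d ∣ F.coeff n * x ^ n := by
        have h4 := (h2.trans (form_modEq F n x y))
        have h5 := dvd_sub h1 h4
        rwa [sub_sub_cancel] at h5
      have h6 : IsCoprime d (x ^ n) := ((hxy.of_isCoprime_of_dvd_right h2).symm).pow_right
      exact h6.dvd_of_dvd_mul_right h3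
    rcases hlead with h | h
    · exact ⟨N.coeff n, h, fun x y d hxy h1 _ h3 => key N x y d hxy h1 h3⟩
    · exact ⟨g.coeff n, h, fun x y d hxy _ h2 h3 => key g x y d hxy h2 h3⟩
  set k := max U.natDegree V.natDegree with hk
  set C₀ : ℤ := c ^ (n + k) * r with hC₀
  have hC₀0 : C₀ ≠ 0 := mul_ne_zero (pow_ne_zero _ hc0) hr
  -- the form takes finitely many values
  have hdvd : ∀ t : ℚ, (∃ m : ℤ, aeval t N = m * aeval t g) →
      form g n t.num t.den ∣ C₀ := by
    rintro t ⟨m, hm⟩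
    have hZ : (t.den : ℤ) ≠ 0 := by exact_mod_cast t.den_nz
    have hZ' : (((t.den : ℤ)) : ℚ) ≠ 0 := by exact_mod_cast hZ
    have ht : ((t.num : ℚ)) / ((t.den : ℤ) : ℚ) = t := by
      rw [Int.cast_natCast]; exact Rat.num_div_den t
    have eN := form_eq_of_le hN t.num t.den hZ
    have eg := form_eq_of_le hg t.num t.den hZ
    have eU := form_eq_of_le (le_max_left U.natDegree V.natDegree) t.num t.den hZ
    have eV := form_eq_of_le (le_max_right U.natDegree V.natDegree) t.num t.den hZ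
    rw [ht] at eN eg eU eV
    have h1 : form N n t.num t.den = m * form g n t.num t.den := by
      have : ((form N n t.num t.den : ℤ) : ℚ) = ((m * form g n t.num t.den : ℤ) : ℚ) := by
        push_cast
        rw [eN, eg, hm]
        ring
      exact_mod_cast this
    have h2 : form U k t.num t.den * form N n t.num t.den
        + form V k t.num t.den * form g n t.num t.den = (t.den : ℤ) ^ (n + k) * r := by
      have h3 : aeval t U * aeval t N + aeval t V * aeval t g = (r : ℚ) := by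
        rw [← map_mul, ← map_mul, ← map_add, hUV, aeval_C]
        rfl
      have : ((form U k t.num t.den * form N n t.num t.den
          + form V k t.num t.den * form g n t.num t.den : ℤ) : ℚ)
          = (((t.den : ℤ) ^ (n + k) * r : ℤ) : ℚ) := by
        push_cast
        rw [eN, eg, eU, eV, ← h3, pow_add]
        push_cast
        ring
      exact_mod_cast this
    have h3 : form g n t.num t.den ∣ (t.den : ℤ) ^ (n + k) * r := by
      rw [← h2, h1]
      exact dvd_add (Dvd.dvd.mul_left (Dvd.dvd.mul_left dvd_rfl _) _) (Dvd.dvd.mul_left dvd_rfl _)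
    have hcop' : IsCoprime t.num (t.den : ℤ) := by
      rw [Int.isCoprime_iff_gcd_eq_one]
      have := t.reduced
      simpa [Int.gcd, Nat.Coprime] using this
    have h4 : GCDMonoid.gcd (form g n t.num t.den) (t.den : ℤ) ∣ c := by
      refine hc t.num t.den _ hcop' ?_ (gcd_dvd_left _ _) (gcd_dvd_right _ _)
      rw [h1]
      exact Dvd.dvd.mul_left (gcd_dvd_left _ _) _
    have h5 := dvd_gcd_mul_of_dvd_mul h3
    refine h5.trans (mul_dvd_mul ?_ dvd_rfl)
    exact gcd_pow_right_dvd_pow_gcd.trans (pow_dvd_pow_of_dvd h4 _)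
  -- conclusion
  have hfin : (⋃ m ∈ {m : ℤ | m ∣ C₀ ∧ m ≠ 0}, (fun p : ℤ × ℤ => ((p.1 : ℚ) / (p.2 : ℚ))) ''
      {p : ℤ × ℤ | form g n p.1 p.2 = m}).Finite := by
    refine Set.Finite.biUnion ?_ fun m hm => ?_
    · refine (Set.finite_Icc (-|C₀|) |C₀|).subset fun m hm => ?_
      exact abs_le.mp (Int.le_of_dvd (abs_pos.mpr hC₀0) ((abs_dvd_abs _ _).mpr hm.1))
    · exact (finite_form hsq hn hg hgn hm.2).image _
  refine hfin.subset ?_
  rintro t ⟨ht0, htm⟩
  rw [Set.mem_iUnion₂]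
  refine ⟨form g n t.num t.den, ⟨hdvd t htm, ?_⟩, (t.num, (t.den : ℤ)), rfl, ?_⟩
  · intro h
    have hZ : (t.den : ℤ) ≠ 0 := by exact_mod_cast t.den_nz
    have eg := form_eq_of_le hg t.num t.den hZ
    have ht : ((t.num : ℚ)) / ((t.den : ℤ) : ℚ) = t := by
      rw [Int.cast_natCast]; exact Rat.num_div_den t
    rw [ht, h, Int.cast_zero] at eg
    have hZ' : (((t.den : ℤ)) : ℚ) ≠ 0 := by exact_mod_cast hZ
    exact ht0 ((mul_eq_zero.mp eg.symm).resolve_left (pow_ne_zero _ hZ'))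
  · simp only [Int.cast_natCast]
    exact Rat.num_div_den t

/-- **Integral values of a rational function**: `N`, `g ∈ ℚ[X]` coprime, `g` squarefree, both of
degree `≤ n`, one of them of degree `n ≥ 3`, and `deg g ≥ n - 1`.  Then `N(t) / g(t)` is an integer
only for finitely many rational numbers `t`. -/
theorem finite_values_rat {N g : ℚ[X]} {n : ℕ} (hn : 3 ≤ n) (hsq : Squarefree g)
    (hcop : IsCoprime N g) (hN : N.natDegree ≤ n) (hg : g.natDegree ≤ n)
    (hgn : n ≤ g.natDegree + 1) (hlead : N.coeff n ≠ 0 ∨ g.coeff n ≠ 0) :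
    {t : ℚ | g.eval t ≠ 0 ∧ ∃ m : ℤ, N.eval t = m * g.eval t}.Finite := by
  obtain ⟨D₁, hD₁, A, hA⟩ := exists_clear N
  obtain ⟨D₂, hD₂, B, hB⟩ := exists_clear g
  have hD₁' : (D₁ : ℚ) ≠ 0 := by exact_mod_cast hD₁
  have hD₂' : (D₂ : ℚ) ≠ 0 := by exact_mod_cast hD₂
  -- the polynomials `D₁ D₂ N` and `D₁ D₂ g`
  have hD : ((D₁ : ℚ) * D₂) ≠ 0 := mul_ne_zero hD₁' hD₂'
  have e1 : (C D₂ * A).map (Int.castRingHom ℚ) = C ((D₁ : ℚ) * D₂) * N := by
    rw [Polynomial.map_mul, map_C, hA, C_mul]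
    simp only [eq_intCast]
    ring
  have e2 : (C D₁ * B).map (Int.castRingHom ℚ) = C ((D₁ : ℚ) * D₂) * g := by
    rw [Polynomial.map_mul, map_C, hB, C_mul]
    simp only [eq_intCast]
    ring
  have hu : IsUnit (C ((D₁ : ℚ) * D₂)) := isUnit_C.mpr (IsUnit.mk0 _ hD)
  have hdeg : ∀ (F : ℤ[X]) (G : ℚ[X]), F.map (Int.castRingHom ℚ) = C ((D₁ : ℚ) * D₂) * G →
      F.natDegree = G.natDegree := by
    intro F G h
    rw [← natDegree_map_eq_of_injective (f := Int.castRingHom ℚ) Int.cast_injective F, h,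
      natDegree_C_mul hD]
  have hco : ∀ (F : ℤ[X]) (G : ℚ[X]), F.map (Int.castRingHom ℚ) = C ((D₁ : ℚ) * D₂) * G →
      G.coeff n ≠ 0 → F.coeff n ≠ 0 := by
    intro F G h h1 h2
    have h3 := congrArg (fun p => p.coeff n) h
    simp only [coeff_map, coeff_C_mul, h2, map_zero] at h3
    exact (mul_ne_zero hD h1) h3.symm
  have hval : ∀ (F : ℤ[X]) (G : ℚ[X]), F.map (Int.castRingHom ℚ) = C ((D₁ : ℚ) * D₂) * G →
      ∀ t : ℚ, aeval t F = ((D₁ : ℚ) * D₂) * G.eval t := by
    intro F G h t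
    have h3 := congrArg (fun p => p.eval t) h
    simp only [eval_map, eval_mul, eval_C] at h3
    rw [← h3]
    rfl
  have h := finite_values (N := C D₂ * A) (g := C D₁ * B) (n := n) hn
    (by rw [e2]; exact hsq.squarefree_of_dvd (hu.mul_left_dvd.mpr dvd_rfl))
    (by rw [e1, e2]
        exact (isCoprime_mul_unit_left hu _ _).mpr hcop)
    (by rw [hdeg _ _ e1]; exact hN) (by rw [hdeg _ _ e2]; exact hg)
    (by rw [hdeg _ _ e2]; exact hgn)
    (by
      rcases hlead with h | h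
      · exact Or.inl (hco _ _ e1 h)
      · exact Or.inr (hco _ _ e2 h))
  refine h.subset ?_
  rintro t ⟨ht0, m, hm⟩
  refine ⟨?_, m, ?_⟩
  · rw [hval _ _ e2]
    exact mul_ne_zero hD ht0
  · rw [hval _ _ e1, hval _ _ e2, hm]
    ring

end Fermat.Agent.Cor.Sieg
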